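import Mathlib
import Fermat.Agent.S24.Sigma
import Fermat.Agent.S24.Gen
import Fermat.Agent.S24.Conj

/-!
Analytic dictionary over a general constant field `K` with an embedding `ι : K →+* ℂ`:
the function field `FK K N`, its generators, the embeddings `thetaK`, `sigmaK` in `Mer`.
-/

set_option autoImplicit false

open UpperHalfPlane hiding I
open Function ModularCurve CongruenceSubgroup
open scoped Manifold MatrixGroups
open Fermat.Agent.S24

namespace Fermat.Agent.GAL.AD

noncomputable section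

section Field

variable (K : Type*) [Field K] [Algebra ℚ K]

/-- The function field of `X₀(N)` over `K`, as an intermediate field of `K((q))`. -/
abbrev FKf (N : ℕ) : IntermediateField K (LaurentSeries K) :=
  laurentBaseChange K (modularFunctionFieldFull N)

/-- The function field of `X₀(N)` over `K`. -/
abbrev FK (N : ℕ) : Type _ := ↥(FKf K N)

theorem jqNModC_mem_FKf (N d : ℕ) [NeZero d] (hd : d ∣ N) : jqNModC K d ∈ FKf K N := by
  rw [← coeffEmb_qExpand_jq]
  exact coeffEmb_mem_laurentBaseChange _ (jqd_mem_full N hd)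

/-- The generator `j(q^d)`. -/
def jK (N d : ℕ) [NeZero d] (hd : d ∣ N) : FK K N := ⟨jqNModC K d, jqNModC_mem_FKf K N d hd⟩

@[simp] theorem coe_jK (N d : ℕ) [NeZero d] (hd : d ∣ N) :
    ((jK K N d hd : FK K N) : LaurentSeries K) = jqNModC K d := rfl

/-- `j`. -/
def jK1 (N : ℕ) : FK K N := jK K N 1 (one_dvd N)

variable {K}

/-- Generation principle. -/
theorem fk_le (N : ℕ) (S : Subfield (LaurentSeries K))
    (hK : ∀ a : K, algebraMap K (LaurentSeries K) a ∈ S)
    (hj : ∀ (d : ℕ) [NeZero d], d ∣ N → jqNModC K d ∈ S) :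
    ∀ x ∈ FKf K N, x ∈ S := by
  intro x hx
  rw [mem_laurentBaseChange_iff] at hx
  refine (Subfield.closure_le (t := S)).mpr ?_ hx
  rintro y (⟨a, rfl⟩ | ⟨z, hz, rfl⟩)
  · exact hK a
  · have hz' : z ∈ Subfield.closure
        (Set.range (algebraMap ℚ (LaurentSeries ℚ)) ∪ divisorExpansions N) := hz
    have : Subfield.closure (Set.range (algebraMap ℚ (LaurentSeries ℚ)) ∪ divisorExpansions N)
        ≤ S.comap (coeffEmb K) := by
      rw [Subfield.closure_le]
      rintro w (⟨r, rfl⟩ | ⟨d, hd, hdN, rfl⟩)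
      · show coeffEmb K (algebraMap ℚ (LaurentSeries ℚ) r) ∈ S
        have : coeffEmb K (algebraMap ℚ (LaurentSeries ℚ) r)
            = algebraMap K (LaurentSeries K) (algebraMap ℚ K r) := by
          rw [algebraMap_laurentSeries_eq_single, algebraMap_laurentSeries_eq_single, coeffEmb,
            coeffMap_single]
        rw [this]; exact hK _
      · show coeffEmb K (qExpand ℚ d jq) ∈ S
        rw [coeffEmb_qExpand_jq]
        exact hj d hdN
    exact this hz'

/-- A ring hom out of the function field maps it into a subfield `S` as soon as the constants and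
the generators are mapped into `S`. -/
theorem map_mem_of_gen {N : ℕ} {E : Type*} [Field E] (φ : FK K N →+* E) (S : Subfield E)
    (hK : ∀ a : K, φ (algebraMap K (FK K N) a) ∈ S)
    (hj : ∀ (d : ℕ) [NeZero d] (hd : d ∣ N), φ (jK K N d hd) ∈ S) (x : FK K N) : φ x ∈ S := by
  let S' : Subfield (LaurentSeries K) := (S.comap φ).map (FKf K N).val.toRingHom
  have key : ∀ y ∈ FKf K N, y ∈ S' := by
    apply fk_le
    · intro a
      exact ⟨algebraMap K (FK K N) a, hK a, rfl⟩
    · intro d _ hd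
      exact ⟨jK K N d hd, hj d hd, rfl⟩
  obtain ⟨y, hy, hyx⟩ := key x x.2
  have : y = x := Subtype.ext hyx
  rw [← this]; exact hy

/-- A subfield of the function field containing the constants and the generators is everything. -/
theorem mem_subfield_of_gen {N : ℕ} (S : Subfield (FK K N))
    (hK : ∀ a : K, algebraMap K (FK K N) a ∈ S)
    (hj : ∀ (d : ℕ) [NeZero d] (hd : d ∣ N), jK K N d hd ∈ S) (x : FK K N) : x ∈ S :=
  map_mem_of_gen (RingHom.id _) S hK hj x

/-- Two ring homs out of the function field agreeing on constants and generators agree. -/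
theorem ringHom_ext_fk {N : ℕ} {E : Type*} [Field E] {φ ψ : FK K N →+* E}
    (hK : ∀ a : K, φ (algebraMap K _ a) = ψ (algebraMap K _ a))
    (hj : ∀ (d : ℕ) [NeZero d] (hd : d ∣ N), φ (jK K N d hd) = ψ (jK K N d hd)) : φ = ψ := by
  ext x
  exact mem_subfield_of_gen (RingHom.eqLocusField φ ψ) hK hj x

variable (K)

/-- The generators. -/
def genSetFK (N : ℕ) : Set (FK K N) :=
  {x | ∃ (d : ℕ) (_ : NeZero d) (hd : d ∣ N), x = jK K N d hd}

theorem adjoin_genSetFK_eq_top (N : ℕ) : IntermediateField.adjoin K (genSetFK K N) = ⊤ := by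
  rw [eq_top_iff]
  intro x _
  refine mem_subfield_of_gen (IntermediateField.adjoin K (genSetFK K N)).toSubfield ?_ ?_ x
  · intro a
    exact IntermediateField.algebraMap_mem _ a
  · intro d _ hd
    exact IntermediateField.subset_adjoin _ _ ⟨d, ‹_›, hd, rfl⟩

theorem finite_genSetFK (N : ℕ) [NeZero N] : (genSetFK K N).Finite := by
  classical
  have : genSetFK K N ⊆
      ⋃ d ∈ N.divisors, {x | ∃ (_ : NeZero d) (hd : d ∣ N), x = jK K N d hd} := by
    rintro x ⟨d, hd0, hd, rfl⟩
    simp only [Set.mem_iUnion]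
    exact ⟨d, Nat.mem_divisors.mpr ⟨hd, NeZero.ne N⟩, hd0, hd, rfl⟩
  refine Set.Finite.subset ?_ this
  refine Set.Finite.biUnion (Finset.finite_toSet _) ?_
  intro d _
  refine Set.Subsingleton.finite ?_
  rintro x ⟨_, _, rfl⟩ y ⟨_, _, rfl⟩
  rfl

theorem transcendental_jK1 (N : ℕ) : Transcendental K (jK1 K N) := by
  have h : Transcendental K (jqNModC K 1) := by
    rw [jqNModC_one]
    exact P2MW.S_ModularCurve_coeff_jqModC_neg_one.ModularCurve.CharLRows.transcendental_jqModC K
  intro halg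
  apply h
  exact halg.algebraMap (A := LaurentSeries K)

end Field

section Theta

variable {K : Type*} [Field K] [Algebra ℚ K] (ι : K →+* ℂ)

theorem coeffMap_mem_range (N : ℕ) :
    ∀ x ∈ FKf K N, coeffMap ι x ∈ (toLaurent 1).fieldRange := by
  apply fk_le N ((toLaurent 1).fieldRange.comap (coeffMap ι))
  · intro a
    refine ⟨algebraMap ℂ (MerPer 1) (ι a), ?_⟩
    rw [toLaurent_const, algebraMap_laurentSeries_eq_single, coeffMap_single]
    rfl
  · intro d _ _
    exact ⟨jdPer d, by rw [toLaurent_jdPer, S24.coeffMap_jqNModC]⟩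

/-- The embedding of the function field in fractions of `1`-periodic holomorphic functions,
characterised by `toLaurent 1 (thetaPer f) = coeffMap ι f`. -/
def thetaPer (N : ℕ) : FK K N →+* MerPer 1 :=
  liftThrough (toLaurent 1) ((coeffMap ι).comp (FKf K N).val.toRingHom)
    (fun x => coeffMap_mem_range ι N x x.2)

theorem toLaurent_thetaPer (N : ℕ) (f : FK K N) :
    toLaurent 1 (thetaPer ι N f) = coeffMap ι (f : LaurentSeries K) :=
  liftThrough_spec _ _ _ f

theorem thetaPer_eq_iff (N : ℕ) (f : FK K N) (u : MerPer 1) :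
    thetaPer ι N f = u ↔ coeffMap ι (f : LaurentSeries K) = toLaurent 1 u :=
  liftThrough_eq_iff _ _ _ f u

theorem thetaPer_algebraMap (N : ℕ) (a : K) :
    thetaPer ι N (algebraMap K _ a) = algebraMap ℂ (MerPer 1) (ι a) := by
  rw [thetaPer_eq_iff, toLaurent_const]
  show coeffMap ι (algebraMap K (LaurentSeries K) a) = _
  rw [algebraMap_laurentSeries_eq_single, coeffMap_single]
  rfl

theorem thetaPer_jK (N d : ℕ) [NeZero d] (hd : d ∣ N) :
    thetaPer ι N (jK K N d hd) = jdPer d := by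
  rw [thetaPer_eq_iff, toLaurent_jdPer, coe_jK]
  exact S24.coeffMap_jqNModC ι d

/-- The embedding of the function field in `Mer`. -/
def thetaK (N : ℕ) : FK K N →+* Mer := (toMer 1).comp (thetaPer ι N)

theorem thetaK_apply (N : ℕ) (f : FK K N) : thetaK ι N f = toMer 1 (thetaPer ι N f) := rfl

theorem thetaK_algebraMap (N : ℕ) (a : K) :
    thetaK ι N (algebraMap K (FK K N) a) = algebraMap ℂ Mer (ι a) := by
  rw [thetaK_apply, thetaPer_algebraMap, toMer_const]

theorem thetaK_jK (N d : ℕ) [NeZero d] (hd : d ∣ N) :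
    thetaK ι N (jK K N d hd) = algebraMap Hol Mer (jdHol d) := by
  rw [thetaK_apply, thetaPer_jK, toMer_jdPer]

theorem thetaK_jK1 (N : ℕ) : thetaK ι N (jK1 K N) = algebraMap Hol Mer (jdHol 1) :=
  thetaK_jK ι N 1 (one_dvd N)

theorem thetaK_injective (N : ℕ) : Injective (thetaK ι N) := (thetaK ι N).injective

/-- `f ↦ g · thetaK f`. -/
def sigma0K (N : ℕ) (g : SL(2, ℤ)) : FK K N →+* Mer :=
  ((actMer g : Mer ≃ₐ[ℂ] Mer) : Mer →+* Mer).comp (thetaK ι N)

theorem sigma0K_apply (N : ℕ) (g : SL(2, ℤ)) (f : FK K N) :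
    sigma0K ι N g f = actMer g (thetaK ι N f) := rfl

theorem sigma0K_algebraMap (N : ℕ) (g : SL(2, ℤ)) (a : K) :
    sigma0K ι N g (algebraMap K (FK K N) a) = algebraMap ℂ Mer (ι a) := by
  rw [sigma0K_apply, thetaK_algebraMap, AlgEquiv.commutes]

theorem sigma0K_jK (N : ℕ) (g : SL(2, ℤ)) (d : ℕ) [NeZero d] (hd : d ∣ N) :
    sigma0K ι N g (jK K N d hd) = algebraMap Hol Mer (actHol g (jdHol d)) := by
  rw [sigma0K_apply, thetaK_jK, actMer_algebraMap]

theorem sigma0K_mul (N : ℕ) (g h : SL(2, ℤ)) (f : FK K N) :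
    sigma0K ι N (g * h) f = actMer g (sigma0K ι N h f) := by
  rw [sigma0K_apply, sigma0K_apply, map_mul]
  rfl

theorem sigma0K_one (N : ℕ) : sigma0K ι N 1 = thetaK ι N := by
  ext f
  rw [sigma0K_apply, map_one]
  rfl

theorem sigma0K_of_mem {N : ℕ} {γ : SL(2, ℤ)} (hγ : γ ∈ Gamma0 N) :
    sigma0K ι N γ = thetaK ι N := by
  apply ringHom_ext_fk
  · intro a
    rw [sigma0K_algebraMap, thetaK_algebraMap]
  · intro d _ hd
    rw [sigma0K_jK, thetaK_jK, actHol_jdHol_of_mem jfun_isSLInvariant hd hγ]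

/-- Elements of the function field are `Γ₀(N)`-invariant. -/
theorem actMer_thetaK {N : ℕ} {γ : SL(2, ℤ)} (hγ : γ ∈ Gamma0 N) (f : FK K N) :
    actMer γ (thetaK ι N f) = thetaK ι N f := by
  rw [← sigma0K_apply, sigma0K_of_mem ι hγ]

theorem sigma0K_mul_of_mem {N : ℕ} (g : SL(2, ℤ)) {γ : SL(2, ℤ)} (hγ : γ ∈ Gamma0 N) :
    sigma0K ι N (g * γ) = sigma0K ι N g := by
  ext f
  rw [sigma0K_mul, sigma0K_of_mem ι hγ, sigma0K_apply]

/-- The family of embeddings indexed by the cosets. -/
def sigmaK (N : ℕ) (x : XN N) : FK K N →+* Mer := sigma0K ι N x.out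

theorem sigmaK_mk (N : ℕ) (g : SL(2, ℤ)) : sigmaK ι N (g : XN N) = sigma0K ι N g := by
  obtain ⟨γ, hγ⟩ := QuotientGroup.mk_out_eq_mul (Gamma0 N) g
  rw [sigmaK, hγ, sigma0K_mul_of_mem ι g γ.2]

theorem actMer_sigmaK (N : ℕ) (s : SL(2, ℤ)) (x : XN N) (f : FK K N) :
    actMer s (sigmaK ι N x f) = sigmaK ι N (s • x) f := by
  induction x using QuotientGroup.induction_on with
  | H g =>
    rw [MulAction.Quotient.smul_coe, smul_eq_mul, sigmaK_mk, sigmaK_mk, sigma0K_mul]

theorem sigmaK_algebraMap (N : ℕ) (x : XN N) (a : K) :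
    sigmaK ι N x (algebraMap K (FK K N) a) = algebraMap ℂ Mer (ι a) :=
  sigma0K_algebraMap ι N _ a

theorem sigmaK_jK1 (N : ℕ) (x : XN N) :
    sigmaK ι N x (jK1 K N) = algebraMap Hol Mer (jdHol 1) := by
  rw [sigmaK, jK1, sigma0K_jK, actHol_jdHol_one jfun_isSLInvariant]

theorem sigmaK_injective (N : ℕ) [NeZero N] : Injective (sigmaK ι N) := by
  intro x y hxy
  induction x using QuotientGroup.induction_on with
  | H g =>
  induction y using QuotientGroup.induction_on with
  | H h =>
    rw [sigmaK_mk, sigmaK_mk] at hxy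
    have h1 := congrArg (fun φ : FK K N →+* Mer => φ (jK K N N dvd_rfl)) hxy
    simp only [sigma0K_jK] at h1
    have h2 := IsFractionRing.injective Hol Mer h1
    rw [QuotientGroup.eq]
    apply mem_Gamma0_of_comp_diag_eq jfun_isSLInvariant jfun_hasSimplePoleAtImInfty
    intro τ
    have h3 := congrFun (congrArg Subtype.val h2) (h • τ)
    rw [actHol_apply, actHol_apply, inv_smul_smul] at h3
    rw [mul_smul, ← scal_eq_smul, ← scal_eq_smul]
    exact h3

theorem merVal_sigma0K (N : ℕ) (g : SL(2, ℤ)) (τ : ℍ) (f : FK K N) :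
    merVal τ (sigma0K ι N g f) = merVal (g⁻¹ • τ) (thetaK ι N f) := by
  rw [sigma0K_apply, merVal_actMer]

end Theta

end

end Fermat.Agent.GAL.AD
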