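import Mathlib
import Fermat.Agent.S24.FF.Glue
import Fermat.Agent.S24.FF.Places
import Fermat.Agent.S24.Cusp.RotCount

/-!
Abstract place dictionary: the counting lemmas of `S24` with their strong conclusions
(every place over a zero of `y` comes from one of the embeddings, with the exact index).
-/

set_option autoImplicit false

namespace Fermat.Agent.GAL.AD

open AlgebraicCurve WithZero IntermediateField
open Fermat.Agent.S24

variable {K F : Type*} [Field K] [Field F] [Algebra K F]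

/-- **Place dictionary lemma**: every zero of `y` comes from one of the embeddings, with the exact
ramification index. -/
theorem exists_embedding_of_zero
    (y : F) [FiniteDimensional K⟮y⟯ F] [Algebra.IsSeparable K⟮y⟯ F]
    (hfin : {v : Place K F | 0 < v.ord y}.Finite)
    (hsum : ∑ v ∈ hfin.toFinset, v.ord y = (Module.finrank K⟮y⟯ F : ℤ))
    (hF0 : ∀ O : ValuationSubring F, (∀ a : K, algebraMap K F a ∈ O) → y ∈ O → O ≠ ⊤ →
      ∃ v : Place K F, v.toValuationSubring = O)
    (hF23 : ∀ (v0 : Place K F) (S : Finset (Place K F)), 0 < v0.ord y → v0 ∉ S →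
      (∀ v ∈ S, 0 < v.ord y) → ∃ b : F, b ≠ 0 ∧ (∀ v ∈ S, v.ord b = 0) ∧
        ∃ g : Polynomial K, algebraMap K⟮y⟯ F (Algebra.norm K⟮y⟯ b) = y * Polynomial.aeval y g)
    {E : Type*} [Field E] (w : Valuation E ℤᵐ⁰)
    {X Y : Type*} [Fintype X] [Fintype Y]
    (hcard : Fintype.card X = Module.finrank K⟮y⟯ F)
    (σ : X → F →+* E) (hσ : Function.Injective σ)
    (hK : ∀ i j (a : K), σ i (algebraMap K F a) = σ j (algebraMap K F a))
    (hy : ∀ i j, σ i y = σ j y)
    (hwK : ∀ i (a : K), a ≠ 0 → w (σ i (algebraMap K F a)) = 1)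
    (e0 : ℕ) (he0 : 0 < e0) (hwy : ∀ i, w (σ i y) = exp (-(e0 : ℤ)))
    (π : X → Y) (hπ : Function.Surjective π)
    (hinv : ∀ i j, π i = π j → ∀ f, w (σ i f) = w (σ j f))
    (m : X → ℕ) (hm : ∀ i, m i * Nat.card {j // π j = π i} = e0)
    (hdiv : ∀ i (f : F), f ≠ 0 → ∃ k : ℤ, w (σ i f) = exp ((m i : ℤ) * k)) :
    ∀ v : Place K F, 0 < v.ord y →
      ∃ i : X, ∀ f : F, f ≠ 0 → w (σ i f) = exp (-((m i : ℤ) * v.ord f)) := by
  classical
  have hmemO : ∀ i (f : F), f ∈ (w.comap (σ i)).valuationSubring ↔ w (σ i f) ≤ 1 := by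
    intro i f
    rw [Valuation.mem_valuationSubring_iff]
    rfl
  have hy0 : y ≠ 0 := by
    intro h0
    obtain ⟨i0⟩ : Nonempty X := by
      rw [← Fintype.card_pos_iff, hcard]; exact Module.finrank_pos
    have := hwy i0
    rw [h0, map_zero, map_zero] at this
    exact exp_ne_zero this.symm
  have hKO : ∀ i (a : K), algebraMap K F a ∈ (w.comap (σ i)).valuationSubring := by
    intro i a
    rw [hmemO]
    rcases eq_or_ne a 0 with rfl | ha
    · simp
    · exact (hwK i a ha).le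
  have hyO : ∀ i, y ∈ (w.comap (σ i)).valuationSubring := by
    intro i
    rw [hmemO, hwy, ← exp_zero, exp_le_exp]
    omega
  have hO : ∀ i, ∃ v : Place K F, v.toValuationSubring = (w.comap (σ i)).valuationSubring := by
    intro i
    refine hF0 _ (hKO i) (hyO i) ?_
    intro htop
    have h1 : y⁻¹ ∈ (w.comap (σ i)).valuationSubring := by rw [htop]; trivial
    rw [hmemO, map_inv₀, map_inv₀, hwy, ← exp_neg, ← exp_zero, exp_le_exp] at h1
    omega
  choose V hV using hO
  have hk := fun i => exists_pos_mul_ord w (σ i) (V i) (hV i)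
  choose k hkpos ht hkord using hk
  have hke : ∀ i, (k i : ℤ) * (V i).ord y = e0 := by
    intro i
    have h1 := hkord i y hy0
    rw [hwy, exp_inj] at h1
    omega
  have hVpos : ∀ i, 0 < (V i).ord y := by
    intro i
    have h1 := hke i
    have h2 : (0 : ℤ) < k i := by exact_mod_cast hkpos i
    have h3 : (0 : ℤ) < e0 := by exact_mod_cast he0
    by_contra hcon
    push Not at hcon
    nlinarith
  have hmpos : ∀ i, 0 < m i := by
    intro i
    rcases Nat.eq_zero_or_pos (m i) with h | h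
    · have := hm i
      rw [h, zero_mul] at this
      omega
    · exact h
  have hmk : ∀ i, m i ≤ k i := by
    intro i
    obtain ⟨t, ht0, htw⟩ := ht i
    obtain ⟨k', hk'⟩ := hdiv i t ht0
    rw [htw, exp_inj] at hk'
    have hdvd : (m i : ℤ) ∣ (k i : ℤ) := ⟨-k', by linarith⟩
    have := Int.le_of_dvd (by exact_mod_cast hkpos i) hdvd
    exact_mod_cast this
  have hele : ∀ i, (V i).ord y ≤ (Nat.card {j // π j = π i} : ℤ) := by
    intro i
    have h1 := hke i
    have h2 : ((m i : ℤ)) * (Nat.card {j // π j = π i} : ℤ) = e0 := by exact_mod_cast hm i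
    have h3 : (m i : ℤ) ≤ k i := by exact_mod_cast hmk i
    have h4 : (0 : ℤ) < m i := by exact_mod_cast hmpos i
    have h5 := hVpos i
    by_contra hcon
    push Not at hcon
    nlinarith
  have hVπ : ∀ i j, π i = π j → V i = V j := by
    intro i j hij
    apply Place.ext
    rw [hV i, hV j]
    ext f
    rw [hmemO, hmemO, hinv i j hij f]
  have hsurj : ∀ v0 : Place K F, 0 < v0.ord y → ∃ i, V i = v0 := by
    intro v0 hv0
    by_contra hcon
    push Not at hcon
    obtain ⟨i0⟩ : Nonempty X := by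
      rw [← Fintype.card_pos_iff, hcard]; exact Module.finrank_pos
    obtain ⟨b, hb0, hbS, g, hg⟩ := hF23 v0 (Finset.univ.image V) hv0
      (by simpa using hcon) (by
        intro v hv
        obtain ⟨i, -, rfl⟩ := Finset.mem_image.1 hv
        exact hVpos i)
    have hprod := prod_embeddings_eq_norm hcard σ hσ
      (fun i j a => agree_on_adjoin y (σ i) (σ j) (hK i j) (hy i j) a) i0 b
    have h1 : w (∏ i, σ i b) = 1 := by
      rw [map_prod]
      refine Finset.prod_eq_one fun i _ => ?_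
      rw [hkord i b hb0, hbS (V i) (Finset.mem_image_of_mem V (Finset.mem_univ i))]
      simp
    have hgO : ∀ g : Polynomial K,
        Polynomial.aeval y g ∈ (w.comap (σ i0)).valuationSubring := by
      intro g
      induction g using Polynomial.induction_on' with
      | add p q hp hq => simpa using add_mem hp hq
      | monomial n a =>
        rw [Polynomial.aeval_monomial]
        exact mul_mem (hKO i0 a) (pow_mem (hyO i0) n)
    have h2 : w (∏ i, σ i b) < 1 := by
      rw [hprod, hg, map_mul, map_mul, hwy]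
      calc exp (-(e0 : ℤ)) * w (σ i0 (Polynomial.aeval y g))
          ≤ exp (-(e0 : ℤ)) * 1 := by
            gcongr
            exact (hmemO i0 _).1 (hgO g)
        _ = exp (-(e0 : ℤ)) := mul_one _
        _ < exp (0 : ℤ) := by rw [exp_lt_exp]; omega
        _ = 1 := exp_zero
    rw [h1] at h2
    exact lt_irrefl _ h2
  -- counting
  have hsurj' : ∀ v : Place K F, ∃ i, 0 < v.ord y → V i = v := by
    intro v
    by_cases hv : 0 < v.ord y
    · obtain ⟨i, hi⟩ := hsurj v hv
      exact ⟨i, fun _ => hi⟩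
    · obtain ⟨i0⟩ : Nonempty X := by
        rw [← Fintype.card_pos_iff, hcard]; exact Module.finrank_pos
      exact ⟨i0, fun h => absurd h hv⟩
  choose ι hι using hsurj'
  set Z := hfin.toFinset with hZ
  have hmemZ : ∀ v, v ∈ Z ↔ 0 < v.ord y := by
    intro v; simp [hZ]
  let c : Y → ℕ := fun y' => Nat.card {j // π j = y'}
  have hcpos : ∀ y', 0 < c y' := by
    intro y'
    obtain ⟨i, hi⟩ := hπ y'
    have : Nonempty {j // π j = y'} := ⟨⟨i, hi⟩⟩
    exact Nat.card_pos
  have hcsum : ∑ y', c y' = Fintype.card X := by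
    have h1 : Fintype.card X = Fintype.card (Σ y', {j // π j = y'}) :=
      Fintype.card_congr (Equiv.sigmaFiberEquiv π).symm
    rw [h1, Fintype.card_sigma]
    refine Finset.sum_congr rfl fun y' _ => ?_
    exact Nat.card_eq_fintype_card
  let t : Place K F → Y := fun v => π (ι v)
  have htinj : Set.InjOn t Z := by
    intro v hv v' hv' hvv'
    have h1 := hι v ((hmemZ v).1 hv)
    have h2 := hι v' ((hmemZ v').1 hv')
    rw [← h1, ← h2]
    exact hVπ _ _ hvv'
  have hle1 : ∑ v ∈ Z, v.ord y ≤ ∑ v ∈ Z, (c (t v) : ℤ) := by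
    refine Finset.sum_le_sum fun v hv => ?_
    have h1 := hι v ((hmemZ v).1 hv)
    have h2 := hele (ι v)
    rw [h1] at h2
    exact h2
  have himg : ∑ v ∈ Z, (c (t v) : ℤ) = ∑ y' ∈ Z.image t, (c y' : ℤ) :=
    (Finset.sum_image (f := fun y' => (c y' : ℤ)) htinj).symm
  have huniv : Z.image t = Finset.univ := by
    by_contra hne
    have hss : Z.image t ⊂ Finset.univ := by
      rw [Finset.ssubset_univ_iff]; exact hne
    have hlt : ∑ y' ∈ Z.image t, c y' < ∑ y' ∈ Finset.univ, c y' :=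
      Finset.sum_lt_sum_of_subset hss.subset
        (i := (Finset.exists_of_ssubset hss).choose)
        (Finset.exists_of_ssubset hss).choose_spec.1
        (Finset.exists_of_ssubset hss).choose_spec.2 (hcpos _) (fun _ _ _ => Nat.zero_le _)
    have hlt' : ∑ y' ∈ Z.image t, (c y' : ℤ) < ∑ y' ∈ Finset.univ, (c y' : ℤ) := by
      exact_mod_cast hlt
    have h3 : (∑ y' ∈ Finset.univ, (c y' : ℤ)) = Module.finrank K⟮y⟯ F := by
      rw [← hcard, ← hcsum]; push_cast; rfl
    rw [hsum, himg] at hle1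
    omega
  have h3 : (∑ y' ∈ Finset.univ, (c y' : ℤ)) = Module.finrank K⟮y⟯ F := by
    rw [← hcard, ← hcsum]; push_cast; rfl
  have hsumeq : ∑ v ∈ Z, v.ord y = ∑ v ∈ Z, (c (t v) : ℤ) := by
    rw [hsum, himg, huniv, h3]
  have hterm : ∀ v ∈ Z, v.ord y ≤ (c (t v) : ℤ) := by
    intro v hv
    have h1 := hι v ((hmemZ v).1 hv)
    have h2 := hele (ι v)
    rw [h1] at h2
    exact h2
  have hteq := (Finset.sum_eq_sum_iff_of_le hterm).1 hsumeq
  intro v hv
  have hVv := hι v hv
  refine ⟨ι v, fun f hf => ?_⟩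
  have h4 : v.ord y = (c (t v) : ℤ) := hteq v ((hmemZ v).2 hv)
  have h5 := hke (ι v)
  rw [hVv, h4] at h5
  have h6 : ((m (ι v) : ℤ)) * (c (t v) : ℤ) = e0 := by exact_mod_cast hm (ι v)
  have h7 : (0 : ℤ) < (c (t v) : ℤ) := by exact_mod_cast hcpos (t v)
  have h8 : (k (ι v) : ℤ) = m (ι v) := by
    have : (k (ι v) : ℤ) * (c (t v) : ℤ) = (m (ι v) : ℤ) * (c (t v) : ℤ) := by rw [h5, h6]
    exact mul_right_cancel₀ h7.ne' this
  have h9 := hkord (ι v) f hf
  rw [hVv, h8] at h9
  exact h9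

/-- Dictionary over an elliptic point. -/
theorem exists_embedding_of_zero_orbits
    (y : F) [FiniteDimensional K⟮y⟯ F] [Algebra.IsSeparable K⟮y⟯ F]
    (hfin : {v : Place K F | 0 < v.ord y}.Finite)
    (hsum : ∑ v ∈ hfin.toFinset, v.ord y = (Module.finrank K⟮y⟯ F : ℤ))
    (hF0 : ∀ O : ValuationSubring F, (∀ a : K, algebraMap K F a ∈ O) → y ∈ O → O ≠ ⊤ →
      ∃ v : Place K F, v.toValuationSubring = O)
    (hF23 : ∀ (v0 : Place K F) (S : Finset (Place K F)), 0 < v0.ord y → v0 ∉ S →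
      (∀ v ∈ S, 0 < v.ord y) → ∃ b : F, b ≠ 0 ∧ (∀ v ∈ S, v.ord b = 0) ∧
        ∃ g : Polynomial K, algebraMap K⟮y⟯ F (Algebra.norm K⟮y⟯ b) = y * Polynomial.aeval y g)
    {E : Type*} [Field E] (w : Valuation E ℤᵐ⁰)
    {G X : Type*} [Group G] [MulAction G X] [Fintype X]
    (hcard : Fintype.card X = Module.finrank K⟮y⟯ F)
    (σ : X → F →+* E) (hσ : Function.Injective σ)
    (hK : ∀ i j (a : K), σ i (algebraMap K F a) = σ j (algebraMap K F a))
    (hy : ∀ i j, σ i y = σ j y)
    (hwK : ∀ i (a : K), a ≠ 0 → w (σ i (algebraMap K F a)) = 1)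
    (p : ℕ) (hp : p.Prime) (hwy : ∀ i, w (σ i y) = exp (-(p : ℤ)))
    (s : G) (hs : ∀ x : X, s ^ p • x = x)
    (A : E →+* E) (hA : ∀ x f, A (σ x f) = σ (s • x) f) (hwA : ∀ u, w (A u) = w u)
    (hrot : ∀ u : E, u ≠ 0 → A u = u → ∃ k : ℤ, w u = exp ((p : ℤ) * k)) :
    ∀ v : Place K F, 0 < v.ord y → ∃ (i : X) (k : ℕ), ((s • i = i ∧ k = p) ∨ k = 1) ∧
      ∀ f : F, f ≠ 0 → w (σ i f) = exp (-((k : ℤ) * v.ord f)) := by
  classical
  let _ : Fintype (MulAction.orbitRel.Quotient (Subgroup.zpowers s) X) := Fintype.ofFinite _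
  have hstep : ∀ x f, w (σ (s • x) f) = w (σ x f) := fun x f => by rw [← hA, hwA]
  have hz : ∀ (k : ℤ) x f, w (σ (s ^ k • x) f) = w (σ x f) := by
    intro k
    induction k using Int.induction_on with
    | zero => intro x f; simp
    | succ n ih =>
      intro x f
      rw [zpow_add_one, mul_smul, ih, hstep]
    | pred n ih =>
      intro x f
      rw [zpow_sub_one, mul_smul, ih, ← hstep (s⁻¹ • x) f, smul_inv_smul]
  have key := exists_embedding_of_zero y hfin hsum hF0 hF23 w hcard σ hσ hK hy hwK p hp.pos hwy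
    (fun x => (Quotient.mk'' x : MulAction.orbitRel.Quotient (Subgroup.zpowers s) X))
    Quotient.mk''_surjective ?_ (fun i => if s • i = i then p else 1) ?_ ?_
  · intro v hv
    obtain ⟨i, hi⟩ := key v hv
    refine ⟨i, if s • i = i then p else 1, ?_, hi⟩
    split_ifs with h
    · exact Or.inl ⟨h, rfl⟩
    · exact Or.inr rfl
  · intro i j hij f
    rw [Quotient.eq''] at hij
    obtain ⟨⟨g, k, rfl⟩, rfl⟩ := MulAction.orbitRel_apply.mp hij
    exact hz k j f
  · intro i
    rw [card_fibre_orbit_zpowers, minimalPeriod_eq_of_prime hp s hs]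
    split_ifs <;> simp
  · intro i f hf
    have hu : σ i f ≠ 0 := (map_ne_zero (σ i)).mpr hf
    split_ifs with h
    · exact hrot _ hu (by rw [hA, h])
    · refine ⟨log (w (σ i f)), ?_⟩
      rw [Nat.cast_one, one_mul, exp_log ((Valuation.ne_zero_iff w).mpr hu)]

/-- Dictionary over an unramified point. -/
theorem exists_embedding_of_zero_unram
    (y : F) [FiniteDimensional K⟮y⟯ F] [Algebra.IsSeparable K⟮y⟯ F]
    (hfin : {v : Place K F | 0 < v.ord y}.Finite)
    (hsum : ∑ v ∈ hfin.toFinset, v.ord y = (Module.finrank K⟮y⟯ F : ℤ))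
    (hF0 : ∀ O : ValuationSubring F, (∀ a : K, algebraMap K F a ∈ O) → y ∈ O → O ≠ ⊤ →
      ∃ v : Place K F, v.toValuationSubring = O)
    (hF23 : ∀ (v0 : Place K F) (S : Finset (Place K F)), 0 < v0.ord y → v0 ∉ S →
      (∀ v ∈ S, 0 < v.ord y) → ∃ b : F, b ≠ 0 ∧ (∀ v ∈ S, v.ord b = 0) ∧
        ∃ g : Polynomial K, algebraMap K⟮y⟯ F (Algebra.norm K⟮y⟯ b) = y * Polynomial.aeval y g)
    {E : Type*} [Field E] (w : Valuation E ℤᵐ⁰)
    {X : Type*} [Fintype X]
    (hcard : Fintype.card X = Module.finrank K⟮y⟯ F)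
    (σ : X → F →+* E) (hσ : Function.Injective σ)
    (hK : ∀ i j (a : K), σ i (algebraMap K F a) = σ j (algebraMap K F a))
    (hy : ∀ i j, σ i y = σ j y)
    (hwK : ∀ i (a : K), a ≠ 0 → w (σ i (algebraMap K F a)) = 1)
    (hwy : ∀ i, w (σ i y) = exp (-(1 : ℤ))) :
    ∀ v : Place K F, 0 < v.ord y → ∃ i : X,
      ∀ f : F, f ≠ 0 → w (σ i f) = exp (-(v.ord f)) := by
  classical
  have key := exists_embedding_of_zero y hfin hsum hF0 hF23 w hcard σ hσ hK hy hwK 1 one_pos
    (by simpa using hwy) id Function.surjective_id ?_ (fun _ => 1) ?_ ?_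
  · intro v hv
    obtain ⟨i, hi⟩ := key v hv
    exact ⟨i, fun f hf => by simpa using hi f hf⟩
  · rintro i j rfl f
    rfl
  · intro i
    simp
  · intro i f hf
    have hu : σ i f ≠ 0 := (map_ne_zero (σ i)).mpr hf
    refine ⟨log (w (σ i f)), ?_⟩
    rw [Nat.cast_one, one_mul, exp_log ((Valuation.ne_zero_iff w).mpr hu)]

open MulAction Fermat.Agent.S24.Cusp in
/-- Dictionary, rotation form (cusps). -/
theorem exists_embedding_of_zero_rot
    (y : F) [FiniteDimensional K⟮y⟯ F] [Algebra.IsSeparable K⟮y⟯ F]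
    (hfin : {v : Place K F | 0 < v.ord y}.Finite)
    (hsum : ∑ v ∈ hfin.toFinset, v.ord y = (Module.finrank K⟮y⟯ F : ℤ))
    (hF0 : ∀ O : ValuationSubring F, (∀ a : K, algebraMap K F a ∈ O) → y ∈ O → O ≠ ⊤ →
      ∃ v : Place K F, v.toValuationSubring = O)
    (hF23 : ∀ (v0 : Place K F) (S : Finset (Place K F)), 0 < v0.ord y → v0 ∉ S →
      (∀ v ∈ S, 0 < v.ord y) → ∃ b : F, b ≠ 0 ∧ (∀ v ∈ S, v.ord b = 0) ∧
        ∃ g : Polynomial K, algebraMap K⟮y⟯ F (Algebra.norm K⟮y⟯ b) = y * Polynomial.aeval y g)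
    {L : Type*} [Field L]
    {X G : Type*} [Finite X] [Group G] [MulAction G X]
    (hcard : Nat.card X = Module.finrank K⟮y⟯ F)
    (σ : X → F →+* LaurentSeries L) (hσ : Function.Injective σ)
    (hK : ∀ i j (a : K), σ i (algebraMap K F a) = σ j (algebraMap K F a))
    (hKord : ∀ i (a : K), a ≠ 0 → (σ i (algebraMap K F a)).order = 0)
    (hy : ∀ i j, σ i y = σ j y)
    (e0 : ℕ) (he0 : 0 < e0) (hwy : ∀ i, (σ i y).order = e0)
    (ζ : Lˣ) (hζ : IsPrimitiveRoot ζ e0)
    (g : G) (hg : ∀ i f, σ (g • i) f = rot ζ (σ i f)) :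
    ∀ v : Place K F, 0 < v.ord y → ∃ (i : X) (k s : ℕ), k * s = e0 ∧ g ^ s • i = i ∧
      ∀ f : F, f ≠ 0 → (σ i f).order = (k : ℤ) * v.ord f := by
  classical
  let _ : Fintype X := Fintype.ofFinite X
  have hnat : ∀ (k : ℕ) i f, σ (g ^ k • i) f = rot (ζ ^ k) (σ i f) := by
    intro k
    induction k with
    | zero => intro i f; simp [rot_one]
    | succ k ih =>
      intro i f
      rw [pow_succ', mul_smul, hg, ih, rot_rot, pow_succ']
  have hinv1 : ∀ i f, σ (g⁻¹ • i) f = rot ζ⁻¹ (σ i f) := by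
    intro i f
    have := hg (g⁻¹ • i) f
    rw [smul_inv_smul] at this
    rw [this, rot_rot, inv_mul_cancel, rot_one]
  have hnat' : ∀ (k : ℕ) i f, σ ((g⁻¹) ^ k • i) f = rot ((ζ⁻¹) ^ k) (σ i f) := by
    intro k
    induction k with
    | zero => intro i f; simp [rot_one]
    | succ k ih =>
      intro i f
      rw [pow_succ', mul_smul, hinv1, ih, rot_rot, pow_succ']
  have hz : ∀ (k : ℤ) i f, σ (g ^ k • i) f = rot (ζ ^ k) (σ i f) := by
    intro k i f
    rcases Int.eq_nat_or_neg k with ⟨n, rfl | rfl⟩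
    · simpa using hnat n i f
    · simpa using hnat' n i f
  have hne : ∀ i (f : F), f ≠ 0 → σ i f ≠ 0 := fun i f hf =>
    (map_ne_zero (σ i)).mpr hf
  let π : X → orbitRel.Quotient (Subgroup.zpowers g) X := Quotient.mk''
  have hπ : Function.Surjective π := Quotient.mk''_surjective
  have hπiff : ∀ i j, π i = π j ↔ ∃ k : ℤ, g ^ k • j = i := by
    intro i j
    rw [Quotient.eq'', orbitRel_apply, mem_orbit_iff]
    constructor
    · rintro ⟨⟨_, k, rfl⟩, hk⟩
      exact ⟨k, hk⟩
    · rintro ⟨k, hk⟩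
      exact ⟨⟨g ^ k, k, rfl⟩, hk⟩
  let s : X → ℕ := fun i => Function.minimalPeriod (fun x : X => g • x) i
  have hper : ∀ i : X, g ^ e0 • i = i := by
    intro i
    apply hσ
    ext1 f
    rw [hnat, hζ.pow_eq_one, rot_one]
  have hs_dvd : ∀ i, s i ∣ e0 := by
    intro i
    apply Function.IsPeriodicPt.minimalPeriod_dvd
    show (fun x : X => g • x)^[e0] i = i
    rw [smul_iterate]
    exact hper i
  have hs_pos : ∀ i, 0 < s i := fun i => Nat.pos_of_dvd_of_pos (hs_dvd i) he0
  have hs_fix : ∀ i : X, g ^ (s i) • i = i := by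
    intro i
    have := Function.isPeriodicPt_minimalPeriod (fun x : X => g • x) i
    have h2 : (fun x : X => g • x)^[s i] i = i := this
    rwa [smul_iterate] at h2
  have hfib : ∀ i, Nat.card {j // π j = π i} = s i := by
    intro i
    have e : {j // π j = π i} ≃ orbit (Subgroup.zpowers g) i :=
      Equiv.subtypeEquivRight (fun j => by
        rw [Quotient.eq'', orbitRel_apply])
    rw [Nat.card_congr e, Nat.card_eq_fintype_card, ← minimalPeriod_eq_card]
  have key := exists_embedding_of_zero (K := K) y hfin hsum hF0 hF23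
    (Valued.v : Valuation (LaurentSeries L) ℤᵐ⁰) (X := X)
    (Y := orbitRel.Quotient (Subgroup.zpowers g) X)
    (by rw [← Nat.card_eq_fintype_card]; exact hcard) σ hσ hK hy
    (fun i a ha => by
      rw [valued_eq_exp_neg_order (hne i _ ((map_ne_zero _).mpr ha)), hKord i a ha]; simp)
    e0 he0
    (fun i => by
      have hy0 : σ i y ≠ 0 := by
        intro h
        have := hwy i
        rw [h, HahnSeries.order_zero] at this
        omega
      rw [valued_eq_exp_neg_order hy0, hwy])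
    π hπ
    (fun i j hij f => by
      obtain ⟨k, rfl⟩ := (hπiff i j).mp hij
      rw [hz, valued_rot])
    (fun i => e0 / s i)
    (fun i => by rw [hfib]; exact Nat.div_mul_cancel (hs_dvd i))
    (fun i f hf => by
      have h1 : rot (ζ ^ s i) (σ i f) = σ i f := by
        rw [← hnat, hs_fix]
      have h2 := zpow_order_eq_one_of_rot_eq _ (hne i f hf) h1
      rw [← zpow_natCast, ← zpow_mul, hζ.zpow_eq_one_iff_dvd] at h2
      obtain ⟨m, hm⟩ := hs_dvd i
      have hm' : e0 / s i = m := by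
        rw [hm]; exact Nat.mul_div_cancel_left m (hs_pos i)
      have h3 : (m : ℤ) ∣ (σ i f).order := by
        rw [hm] at h2
        push_cast at h2
        exact (mul_dvd_mul_iff_left (by exact_mod_cast (hs_pos i).ne')).mp h2
      obtain ⟨c, hc⟩ := h3
      refine ⟨-c, ?_⟩
      rw [valued_eq_exp_neg_order (hne i f hf), hm', hc]
      congr 1
      ring)
  intro v hv
  obtain ⟨i, hi⟩ := key v hv
  refine ⟨i, e0 / s i, s i, Nat.div_mul_cancel (hs_dvd i), hs_fix i, fun f hf => ?_⟩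
  have h1 := hi f hf
  rw [valued_eq_exp_neg_order (hne i f hf), exp_inj] at h1
  omega

section Param

variable [IsAlgClosed K] [CharZero K] {y : F}

/-- Dictionary over an elliptic point, hypothesis-free form. -/
theorem param_exists_embedding_orbits (hy : IsFiniteParam K y)
    {E : Type*} [Field E] (w : Valuation E ℤᵐ⁰)
    {G X : Type*} [Group G] [MulAction G X] [Fintype X]
    (hcard : Fintype.card X = Module.finrank K⟮y⟯ F)
    (σ : X → F →+* E) (hσ : Function.Injective σ)
    (hK : ∀ i j (a : K), σ i (algebraMap K F a) = σ j (algebraMap K F a))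
    (hσy : ∀ i j, σ i y = σ j y)
    (hwK : ∀ i (a : K), a ≠ 0 → w (σ i (algebraMap K F a)) = 1)
    (p : ℕ) (hp : p.Prime) (hwy : ∀ i, w (σ i y) = exp (-(p : ℤ)))
    (s : G) (hs : ∀ x : X, s ^ p • x = x)
    (A : E →+* E) (hA : ∀ x f, A (σ x f) = σ (s • x) f) (hwA : ∀ u, w (A u) = w u)
    (hrot : ∀ u : E, u ≠ 0 → A u = u → ∃ k : ℤ, w u = exp ((p : ℤ) * k)) :
    ∀ v : Place K F, 0 < v.ord y → ∃ (i : X) (k : ℕ), ((s • i = i ∧ k = p) ∨ k = 1) ∧
      ∀ f : F, f ≠ 0 → w (σ i f) = exp (-((k : ℤ) * v.ord f)) :=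
  haveI := hy.finite
  exists_embedding_of_zero_orbits y hy.finite_zeros hy.sum_zeros hy.exists_place_eq
    hy.exists_norm_eq w hcard σ hσ hK hσy hwK p hp hwy s hs A hA hwA hrot

/-- Dictionary over an unramified point, hypothesis-free form. -/
theorem param_exists_embedding_unram (hy : IsFiniteParam K y)
    {E : Type*} [Field E] (w : Valuation E ℤᵐ⁰)
    {X : Type*} [Fintype X]
    (hcard : Fintype.card X = Module.finrank K⟮y⟯ F)
    (σ : X → F →+* E) (hσ : Function.Injective σ)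
    (hK : ∀ i j (a : K), σ i (algebraMap K F a) = σ j (algebraMap K F a))
    (hσy : ∀ i j, σ i y = σ j y)
    (hwK : ∀ i (a : K), a ≠ 0 → w (σ i (algebraMap K F a)) = 1)
    (hwy : ∀ i, w (σ i y) = exp (-(1 : ℤ))) :
    ∀ v : Place K F, 0 < v.ord y → ∃ i : X,
      ∀ f : F, f ≠ 0 → w (σ i f) = exp (-(v.ord f)) :=
  haveI := hy.finite
  exists_embedding_of_zero_unram y hy.finite_zeros hy.sum_zeros hy.exists_place_eq
    hy.exists_norm_eq w hcard σ hσ hK hσy hwK hwy

/-- Dictionary, rotation form, hypothesis-free form. -/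
theorem param_exists_embedding_rot (hy : IsFiniteParam K y)
    {L : Type*} [Field L]
    {X G : Type*} [Finite X] [Group G] [MulAction G X]
    (hcard : Nat.card X = Module.finrank K⟮y⟯ F)
    (σ : X → F →+* LaurentSeries L) (hσ : Function.Injective σ)
    (hK : ∀ i j (a : K), σ i (algebraMap K F a) = σ j (algebraMap K F a))
    (hKord : ∀ i (a : K), a ≠ 0 → (σ i (algebraMap K F a)).order = 0)
    (hσy : ∀ i j, σ i y = σ j y)
    (e0 : ℕ) (he0 : 0 < e0) (hwy : ∀ i, (σ i y).order = e0)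
    (ζ : Lˣ) (hζ : IsPrimitiveRoot ζ e0)
    (g : G) (hg : ∀ i f, σ (g • i) f = rot ζ (σ i f)) :
    ∀ v : Place K F, 0 < v.ord y → ∃ (i : X) (k s : ℕ), k * s = e0 ∧ g ^ s • i = i ∧
      ∀ f : F, f ≠ 0 → (σ i f).order = (k : ℤ) * v.ord f :=
  haveI := hy.finite
  exists_embedding_of_zero_rot y hy.finite_zeros hy.sum_zeros hy.exists_place_eq
    hy.exists_norm_eq hcard σ hσ hK hKord hσy e0 he0 hwy ζ hζ g hg

end Param

end Fermat.Agent.GAL.AD
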