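import Mathlib
import Fermat.Agent.GAL.AD.Basic
import Fermat.Agent.S24.CP

/-!
The degree theorem over a general constant field: `[FK K N : K(j)] = card (SL₂(ℤ) / Γ₀(N))`.
-/

set_option autoImplicit false

open ModularCurve IntermediateField CongruenceSubgroup
open scoped MatrixGroups
open Fermat.Agent.S24

namespace Fermat.Agent.GAL.AD

noncomputable section

variable {K : Type*} [Field K] [Algebra ℚ K] (ι : K →+* ℂ)

theorem thetaK_image_genSetFK (N : ℕ) :
    thetaK ι N '' genSetFK K N = (IsScalarTower.toAlgHom ℂ Hol Mer) '' genSetHol N := by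
  ext x
  constructor
  · rintro ⟨_, ⟨d, hd0, hd, rfl⟩, rfl⟩
    exact ⟨jdHol d, ⟨d, hd0, hd, rfl⟩, (thetaK_jK ι N d hd).symm⟩
  · rintro ⟨_, ⟨d, hd0, hd, rfl⟩, rfl⟩
    exact ⟨jK K N d hd, ⟨d, hd0, hd, rfl⟩, thetaK_jK ι N d hd⟩

set_option synthInstance.maxHeartbeats 400000 in
theorem thetaK_relation (N : ℕ) (m : ℕ) (p : Fin m → Polynomial ℂ) (f : Fin m → FK K N)
    (h : ∑ i, Polynomial.aeval (thetaK ι N (jK1 K N)) (p i) * thetaK ι N (f i) = 0) :
    ∑ i, Polynomial.aeval (coeffMap ι ((FKf K N).val (jK1 K N))) (p i)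
      * coeffMap ι ((FKf K N).val (f i)) = 0 := by
  have h1 : toMer 1 (∑ i, Polynomial.aeval (thetaPer ι N (jK1 K N)) (p i)
      * thetaPer ι N (f i)) = 0 := by
    rw [map_sum (toMer 1), ← h]
    refine Finset.sum_congr rfl fun i _ => ?_
    rw [map_mul, toMer_aeval]
    rfl
  have h2 := (map_eq_zero_iff _ (toMer_injective 1)).mp h1
  have h3 := congrArg (toLaurent 1) h2
  rw [map_zero, map_sum (toLaurent 1)] at h3
  rw [← h3]
  refine Finset.sum_congr rfl fun i _ => ?_
  rw [map_mul, toLaurent_aeval, toLaurent_thetaPer, toLaurent_thetaPer]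
  rfl

include ι in
set_option synthInstance.maxHeartbeats 400000 in
theorem degreeK (N : ℕ) [NeZero N] :
    FiniteDimensional K⟮jK1 K N⟯ (FK K N) ∧
      Module.finrank K⟮jK1 K N⟯ (FK K N) = Nat.card (XN N) := by
  classical
  rw [Nat.card_eq_fintype_card]
  refine finrank_eq_card_of_conjugates ι (FKf K N).val (jK1 K N)
    (transcendental_jK1 K N) (thetaK ι N) (finite_genSetFK K N).toFinset ?_ ?_
    (thetaK_relation ι N)
    (fun x : XN N => ((actMer (Quotient.out x) : Mer ≃ₐ[ℂ] Mer) : Mer →ₐ[ℂ] Mer))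
    ((1 : SL(2, ℤ)) : XN N) ?_ ?_ ?_ ?_
  · rw [Set.Finite.coe_toFinset]
    exact adjoin_genSetFK_eq_top K N
  · exact thetaK_algebraMap ι N
  · intro f
    have h1 : sigmaK ι N ((1 : SL(2, ℤ)) : XN N) f = sigma0K ι N 1 f := by rw [sigmaK_mk]
    rw [sigma0K_one] at h1
    exact h1
  · intro x
    have h1 := sigmaK_jK1 ι N x
    rw [← thetaK_jK1 ι N] at h1
    exact h1
  · intro x y hxy
    exact sigmaK_injective ι N hxy
  · rw [Set.Finite.coe_toFinset, thetaK_jK1, thetaK_image_genSetFK, ← ThetaMer_image_genSetF]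
    exact charpolyCoeff N

include ι in
theorem isFiniteParam_jK1 (N : ℕ) [NeZero N] : IsFiniteParam K (jK1 K N) :=
  ⟨transcendental_jK1 K N, (degreeK ι N).1⟩

include ι in
theorem finrank_jK1 (N : ℕ) [NeZero N] :
    Module.finrank K⟮jK1 K N⟯ (FK K N) = Nat.card (XN N) := (degreeK ι N).2

end

end Fermat.Agent.GAL.AD
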