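import Mathlib
import Fermat.Agent.GAL.AD.Degree
import Fermat.Agent.GAL.AD.Abstract
import Fermat.Agent.S24.Cusp.SigmaInf
import Fermat.Agent.S24.Orbits

/-!
Analytic dictionary at the cusps: every pole of `j` comes from a `q_N`-expansion of a conjugate,
with the exact ramification index.
-/

set_option autoImplicit false

open UpperHalfPlane hiding I
open Function ModularCurve AlgebraicCurve IntermediateField CongruenceSubgroup
open scoped MatrixGroups
open Fermat.Agent.S24

namespace Fermat.Agent.GAL.AD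

noncomputable section

variable {K : Type*} [Field K] [Algebra ℚ K] (ι : K →+* ℂ) (N : ℕ) [NeZero N]

theorem sigmaK_mem_range (x : XN N) (f : FK K N) : sigmaK ι N x f ∈ (toMer N).fieldRange := by
  apply map_mem_of_gen
  · intro a
    exact ⟨algebraMap ℂ (MerPer N) (ι a), by rw [toMer_const, sigmaK_algebraMap]⟩
  · intro d _ hd
    rw [sigmaK, sigma0K_jK]
    exact actHol_jdHol_mem_range N _ d hd

/-- `sigmaK ι N x` with values in `MerPer N`. -/
def sigmaPerK (x : XN N) : FK K N →+* MerPer N :=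
  liftThrough (toMer N) (sigmaK ι N x) (sigmaK_mem_range ι N x)

theorem toMer_sigmaPerK (x : XN N) (f : FK K N) :
    toMer N (sigmaPerK ι N x f) = sigmaK ι N x f :=
  liftThrough_spec _ _ _ f

/-- The `q_N`-expansion of `sigmaK ι N x f`. -/
def sigmaInfK (x : XN N) : FK K N →+* LaurentSeries ℂ := (toLaurent N).comp (sigmaPerK ι N x)

theorem sigmaInfK_apply (x : XN N) (f : FK K N) :
    sigmaInfK ι N x f = toLaurent N (sigmaPerK ι N x f) := rfl

theorem sigmaInfK_T_inv_smul (x : XN N) (f : FK K N) :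
    sigmaInfK ι N (ModularGroup.T⁻¹ • x) f = rot (zetaU N) (sigmaInfK ι N x f) := by
  apply toLaurent_eq_rot_of_toMer_eq
  rw [toMer_sigmaPerK, toMer_sigmaPerK, actMer_sigmaK]

theorem sigmaInfK_injective : Injective (sigmaInfK ι N) := by
  intro x y hxy
  apply sigmaK_injective ι N
  ext f
  have h1 : sigmaInfK ι N x f = sigmaInfK ι N y f := by rw [hxy]
  have h2 := toLaurent_injective N h1
  rw [← toMer_sigmaPerK, ← toMer_sigmaPerK, h2]

theorem sigmaPerK_algebraMap (x : XN N) (a : K) :
    sigmaPerK ι N x (algebraMap K (FK K N) a) = algebraMap ℂ (MerPer N) (ι a) := by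
  apply toMer_injective N
  rw [toMer_sigmaPerK, toMer_const, sigmaK_algebraMap]

theorem sigmaInfK_algebraMap (x : XN N) (a : K) :
    sigmaInfK ι N x (algebraMap K (FK K N) a) = HahnSeries.C (ι a) := by
  rw [sigmaInfK_apply, sigmaPerK_algebraMap, toLaurent_const]

theorem sigmaInfK_algebraMap_order (x : XN N) (a : K) :
    (sigmaInfK ι N x (algebraMap K (FK K N) a)).order = 0 := by
  rw [sigmaInfK_algebraMap]
  exact HahnSeries.order_C

theorem sigmaInfK_jK1 (x : XN N) : sigmaInfK ι N x (jK1 K N) = qExpand ℂ N (jqModC ℂ) := by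
  have h1 : toMer N (sigmaPerK ι N x (jK1 K N)) = toMer 1 (jdPer 1) := by
    rw [toMer_sigmaPerK, sigmaK_jK1, toMer_jdPer]
  rw [sigmaInfK_apply, toLaurent_eq_qExpand_of_toMer_eq 1 (mul_one N).symm h1, toLaurent_jdPer,
    jqNModC_one]

theorem sigmaInfK_jK1_inv_order (x : XN N) : (sigmaInfK ι N x (jK1 K N)⁻¹).order = (N : ℤ) := by
  rw [map_inv₀, laurent_order_inv, sigmaInfK_jK1, order_qExpand, order_jqModC]
  ring

/-- **Dictionary at the cusps.** -/
theorem exists_cusp_of_place [IsAlgClosed K] (v : Place K (FK K N))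
    (hv : v.ord (jK1 K N) < 0) :
    ∃ (x : XN N) (k s : ℕ), k * s = N ∧ (ModularGroup.T⁻¹ : SL(2, ℤ)) ^ s • x = x ∧
      ∀ f : FK K N, f ≠ 0 → (sigmaInfK ι N x f).order = (k : ℤ) * v.ord f := by
  have : CharZero K := algebraRat.charZero K
  have := finite_quotient_Gamma0 N
  refine param_exists_embedding_rot (isFiniteParam_jK1 ι N).inv (L := ℂ) (X := XN N)
    (G := SL(2, ℤ)) (by rw [IsFiniteParam.finrank_inv, finrank_jK1 ι N])
    (sigmaInfK ι N) (sigmaInfK_injective ι N)
    (fun i j a => by rw [sigmaInfK_algebraMap, sigmaInfK_algebraMap])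
    (fun i a _ => sigmaInfK_algebraMap_order ι N i a)
    (fun i j => by rw [map_inv₀, map_inv₀, sigmaInfK_jK1, sigmaInfK_jK1])
    N (Nat.pos_of_ne_zero (NeZero.ne N)) (fun i => sigmaInfK_jK1_inv_order ι N i)
    (zetaU N) (isPrimitiveRoot_zetaU N) ModularGroup.T⁻¹
    (fun i f => sigmaInfK_T_inv_smul ι N i f) v ?_
  rw [Place.ord_inv]
  omega

/-! ### Periodicity and divisibility of the order -/

omit [NeZero N] in
theorem actMer_pow (g : SL(2, ℤ)) (s : ℕ) (u : Mer) :
    actMer (g ^ s) u = (fun w => actMer g w)^[s] u := by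
  induction s generalizing u with
  | zero => simp
  | succ s ih =>
    rw [pow_succ, map_mul, Function.iterate_succ_apply, ← ih]
    rfl

theorem toMer_iterate_shiftMer (s : ℕ) (U : MerPer N) :
    toMer N ((shiftMer N)^[s] U) = actMer (ModularGroup.T⁻¹ ^ s) (toMer N U) := by
  induction s generalizing U with
  | zero => simp
  | succ s ih =>
    rw [Function.iterate_succ_apply, ih, toMer_shiftMer, pow_succ, map_mul]
    rfl

theorem toLaurent_iterate_shiftMer (s : ℕ) (U : MerPer N) :
    toLaurent N ((shiftMer N)^[s] U) = rot (zetaU N ^ s) (toLaurent N U) := by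
  induction s generalizing U with
  | zero => simp
  | succ s ih =>
    rw [Function.iterate_succ_apply, ih, toLaurent_shiftMer, S24.rot_rot, pow_succ]

/-- An `s`-periodic element of `MerPer N`, `N = k s`, has `q_N`-order divisible by `k`. -/
theorem exists_order_eq_mul {k s : ℕ} (hks : k * s = N) (U : MerPer N) (hU : U ≠ 0)
    (hinv : actMer (ModularGroup.T⁻¹ ^ s) (toMer N U) = toMer N U) :
    ∃ n : ℤ, (toLaurent N U).order = (k : ℤ) * n := by
  have h1 : (shiftMer N)^[s] U = U := by
    apply toMer_injective N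
    rw [toMer_iterate_shiftMer, hinv]
  have h2 : rot (zetaU N ^ s) (toLaurent N U) = toLaurent N U := by
    rw [← toLaurent_iterate_shiftMer, h1]
  have hne : toLaurent N U ≠ 0 := (map_ne_zero _).mpr hU
  have h3 := Cusp.zpow_order_eq_one_of_rot_eq _ hne h2
  rw [← zpow_natCast, ← zpow_mul, (isPrimitiveRoot_zetaU N).zpow_eq_one_iff_dvd] at h3
  have hs : s ≠ 0 := by
    rintro rfl
    exact NeZero.ne N (by simpa using hks.symm)
  have h4 : (k : ℤ) ∣ (toLaurent N U).order := by
    have hN : (N : ℤ) = (s : ℤ) * k := by rw [← hks]; push_cast; ring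
    rw [hN] at h3
    exact (mul_dvd_mul_iff_left (by exact_mod_cast hs)).mp h3
  exact h4

end

end Fermat.Agent.GAL.AD
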