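import Mathlib
import Fermat.Agent.GAL.AD.Degree
import Fermat.Agent.GAL.AD.Abstract
import Fermat.Agent.S24.PointTargets

/-!
Analytic dictionary, finite part: every place of `FK K N` at which `j` is regular comes from a
point of the upper half plane, with the exact ramification index.
-/

set_option autoImplicit false

open UpperHalfPlane hiding I
open AlgebraicCurve IntermediateField WithZero CongruenceSubgroup
open scoped MatrixGroups
open Fermat.Agent.S24

namespace Fermat.Agent.GAL.AD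

noncomputable section

variable {K : Type*} [Field K] [Algebra ℚ K] (ι : K →+* ℂ)

theorem sigmaK_jK1_sub (N : ℕ) (x : XN N) (c : K) :
    sigmaK ι N x (jK1 K N - algebraMap K (FK K N) c) =
      algebraMap Hol Mer (jdHol 1 - algebraMap ℂ Hol (ι c)) := by
  rw [RingHom.map_sub, sigmaK_jK1, sigmaK_algebraMap, RingHom.map_sub,
    ← IsScalarTower.algebraMap_apply]

theorem merVal_sigmaK_jK1_sub (N : ℕ) (x : XN N) (c : K) (τ0 : ℍ) (e0 : ℕ)
    (hord : analyticOrderAt ((fun z => jfun z - ι c) ∘ ofComplex) (τ0 : ℂ) = e0) :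
    merVal τ0 (sigmaK ι N x (jK1 K N - algebraMap K (FK K N) c)) = exp (-(e0 : ℤ)) := by
  rw [sigmaK_jK1_sub, merVal_algebraMap, holVal_eq_exp_iff, coe_jdHol_one_sub, hord]

theorem merVal_sigmaK_algebraMap (N : ℕ) (x : XN N) (τ0 : ℍ) (a : K) (ha : a ≠ 0) :
    merVal τ0 (sigmaK ι N x (algebraMap K (FK K N) a)) = 1 := by
  rw [sigmaK_algebraMap]
  exact merVal_algebraMap_complex τ0 ((map_ne_zero ι).mpr ha)

theorem merVal_sigmaK (N : ℕ) (x : XN N) (τ : ℍ) (f : FK K N) :
    merVal τ (sigmaK ι N x f) = merVal ((Quotient.out x)⁻¹ • τ) (thetaK ι N f) :=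
  merVal_sigma0K ι N _ τ f

/-- The conclusion of the dictionary at a place `v`. -/
def IsPointOf (N : ℕ) (v : Place K (FK K N)) (τ : ℍ) (k : ℕ) : Prop :=
  0 < k ∧ (∀ f : FK K N, f ≠ 0 → merVal τ (thetaK ι N f) = exp (-((k : ℤ) * v.ord f))) ∧
    ∀ u : Mer, u ≠ 0 → (∀ γ ∈ Gamma0 N, γ • τ = τ → actMer γ u = u) →
      ∃ n : ℤ, merVal τ u = exp ((k : ℤ) * n)

variable [IsAlgClosed K] (N : ℕ) [NeZero N]

theorem exists_point_of_order_one (c : K) (τ0 : ℍ)
    (hord : analyticOrderAt ((fun z => jfun z - ι c) ∘ ofComplex) (τ0 : ℂ) = 1)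
    (v : Place K (FK K N)) (hv : 0 < v.ord (jK1 K N - algebraMap K (FK K N) c)) :
    ∃ (τ : ℍ) (k : ℕ), IsPointOf ι N v τ k := by
  have : CharZero K := algebraRat.charZero K
  have := finite_quotient_Gamma0 N
  let _ : Fintype (XN N) := Fintype.ofFinite _
  obtain ⟨i, hi⟩ := param_exists_embedding_unram ((isFiniteParam_jK1 ι N).sub_const c)
    (merVal τ0) (by rw [IsFiniteParam.finrank_sub_const, finrank_jK1 ι N, Nat.card_eq_fintype_card])
    (sigmaK ι N) (sigmaK_injective ι N)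
    (fun i j a => by rw [sigmaK_algebraMap, sigmaK_algebraMap])
    (fun i j => by rw [sigmaK_jK1_sub, sigmaK_jK1_sub])
    (fun i a ha => merVal_sigmaK_algebraMap ι N i τ0 a ha)
    (fun i => merVal_sigmaK_jK1_sub ι N i c τ0 1 (by simpa using hord)) v hv
  refine ⟨(Quotient.out i)⁻¹ • τ0, 1, one_pos, fun f hf => ?_, fun u hu _ => ?_⟩
  · rw [← merVal_sigmaK, hi f hf]
    simp
  · obtain ⟨n, hn⟩ := exists_merVal_eq_exp ((Quotient.out i)⁻¹ • τ0) hu
    exact ⟨n, by simpa using hn⟩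

theorem exists_point_of_elliptic (c : K) (τ0 : ℍ) (p : ℕ) (hp : p.Prime)
    (hord : analyticOrderAt ((fun z => jfun z - ι c) ∘ ofComplex) (τ0 : ℂ) = p)
    (s : SL(2, ℤ)) (hfix : s • τ0 = τ0) (hs : ∀ x : XN N, s ^ p • x = x)
    (hrot : ∀ u : Mer, u ≠ 0 → actMer s u = u → ∃ k : ℤ, merVal τ0 u = exp ((p : ℤ) * k))
    (v : Place K (FK K N)) (hv : 0 < v.ord (jK1 K N - algebraMap K (FK K N) c)) :
    ∃ (τ : ℍ) (k : ℕ), IsPointOf ι N v τ k := by
  have : CharZero K := algebraRat.charZero K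
  have := finite_quotient_Gamma0 N
  let _ : Fintype (XN N) := Fintype.ofFinite _
  obtain ⟨i, k, hk, hi⟩ := param_exists_embedding_orbits ((isFiniteParam_jK1 ι N).sub_const c)
    (merVal τ0) (by rw [IsFiniteParam.finrank_sub_const, finrank_jK1 ι N, Nat.card_eq_fintype_card])
    (sigmaK ι N) (sigmaK_injective ι N)
    (fun i j a => by rw [sigmaK_algebraMap, sigmaK_algebraMap])
    (fun i j => by rw [sigmaK_jK1_sub, sigmaK_jK1_sub])
    (fun i a ha => merVal_sigmaK_algebraMap ι N i τ0 a ha)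
    p hp (fun i => merVal_sigmaK_jK1_sub ι N i c τ0 p hord) s hs
    ((actMer s : Mer ≃ₐ[ℂ] Mer) : Mer →+* Mer)
    (fun x f => actMer_sigmaK ι N s x f)
    (fun u => by
      show merVal τ0 (actMer s u) = merVal τ0 u
      rw [merVal_actMer, inv_smul_eq_iff.mpr hfix.symm])
    hrot v hv
  set g : SL(2, ℤ) := Quotient.out i with hg
  refine ⟨g⁻¹ • τ0, k, ?_, fun f hf => ?_, fun u hu hinv => ?_⟩
  · rcases hk with ⟨-, rfl⟩ | rfl
    · exact hp.pos
    · exact one_pos
  · rw [← merVal_sigmaK, hi f hf]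
  · rcases hk with ⟨hsi, rfl⟩ | rfl
    · have hgi : ((g : SL(2, ℤ)) : XN N) = i := Quotient.out_eq' i
      have hmem : g⁻¹ * s * g ∈ Gamma0 N := by
        have h1 : ((s * g : SL(2, ℤ)) : XN N) = (g : XN N) := by
          rw [← smul_eq_mul, ← MulAction.Quotient.smul_coe, hgi, hsi]
        have h2 := QuotientGroup.eq.mp h1.symm
        rwa [← mul_assoc] at h2
      have hγ : (g⁻¹ * s * g) • (g⁻¹ • τ0) = g⁻¹ • τ0 := by
        rw [← mul_smul, mul_assoc, mul_assoc, mul_inv_cancel, mul_one, mul_smul, hfix]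
      have h3 := hinv _ hmem hγ
      have h4 : actMer s (actMer g u) = actMer g u := by
        have : s * g = g * (g⁻¹ * s * g) := by group
        calc actMer s (actMer g u) = actMer (s * g) u := by rw [map_mul]; rfl
          _ = actMer (g * (g⁻¹ * s * g)) u := by rw [← this]
          _ = actMer g (actMer (g⁻¹ * s * g) u) := by rw [map_mul]; rfl
          _ = actMer g u := by rw [h3]
      obtain ⟨n, hn⟩ := hrot (actMer g u) ((map_ne_zero _).mpr hu) h4
      exact ⟨n, by rw [← merVal_actMer, hn]⟩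
    · obtain ⟨n, hn⟩ := exists_merVal_eq_exp (g⁻¹ • τ0) hu
      exact ⟨n, by simpa using hn⟩

/-- **Dictionary, finite part.** -/
theorem exists_point_of_place (v : Place K (FK K N))
    (hv : jK1 K N ∈ v.toValuationSubring) :
    ∃ (τ : ℍ) (k : ℕ), IsPointOf ι N v τ k := by
  have : CharZero K := algebraRat.charZero K
  obtain ⟨c, hc⟩ := (isFiniteParam_jK1 ι N).exists_value v hv
  have hc' : 0 < v.ord (jK1 K N - algebraMap K (FK K N) c) := by
    rcases hc with hc | hc
    · exact absurd (hc ▸ isAlgebraic_algebraMap c) (transcendental_jK1 K N)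
    · exact hc
  by_cases h1 : ι c = 1728
  · refine exists_point_of_elliptic ι N c UpperHalfPlane.I 2 Nat.prime_two ?_
      ModularGroup.S S20.S_smul_I (S_sq_smul N) (fun u hu h => exists_merVal_I_eq hu h) v hc'
    rw [h1]
    exact order_jfun_sub_1728_I
  by_cases h0 : ι c = 0
  · refine exists_point_of_elliptic ι N c S20.rhoPt 3 Nat.prime_three ?_
      (ModularGroup.S * ModularGroup.T) S20.ST_smul_rhoPt (ST_cube_smul N)
      (fun u hu h => exists_merVal_rho_eq hu h) v hc'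
    rw [h0]
    simpa using order_jfun_rhoPt
  · obtain ⟨τ0, hτ0⟩ := jfun_surjective (ι c)
    exact exists_point_of_order_one ι N c τ0 (order_jfun_sub hτ0 h0 h1) v hc'

end

end Fermat.Agent.GAL.AD
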