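import Mathlib
import Fermat.Agent.GAL.AD.Points
import Fermat.Agent.GAL.AD.Cusps
import Fermat.Agent.GAL.MerDiv

/-!
Criterion: if `thetaK f = h ^ p` with `h : Mer` fixed by the elliptic and parabolic elements of
`Γ₀(N)`, then `p ∣ ord_v f` at every place `v`.
-/

set_option autoImplicit false

open UpperHalfPlane hiding I
open Function ModularCurve AlgebraicCurve IntermediateField CongruenceSubgroup WithZero
open scoped MatrixGroups Manifold
open Fermat.Agent.S24

namespace Fermat.Agent.GAL.AD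

noncomputable section

theorem isBoundedAtImInfty_of_pow {p : ℕ} (hp : p ≠ 0) {f : ℍ → ℂ}
    (h : IsBoundedAtImInfty (f ^ p)) : IsBoundedAtImInfty f := by
  rw [isBoundedAtImInfty_iff] at h ⊢
  obtain ⟨M, A, hMA⟩ := h
  refine ⟨max 1 M, A, fun z hz => ?_⟩
  have h1 := hMA z hz
  rw [Pi.pow_apply, norm_pow] at h1
  by_cases h2 : ‖f z‖ ≤ 1
  · exact h2.trans (le_max_left _ _)
  · push Not at h2
    exact ((le_self_pow₀ h2.le hp).trans h1).trans (le_max_right _ _)

theorem actHol_T_inv_pow_apply (n : ℕ) (f : Hol) (τ : ℍ) :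
    (actHol (ModularGroup.T⁻¹ ^ n) f : ℍ → ℂ) τ = (f : ℍ → ℂ) ((n : ℝ) +ᵥ τ) := by
  rw [actHol_apply, inv_pow, inv_inv, ← zpow_natCast, modular_T_zpow_smul]
  simp

variable (N : ℕ) [NeZero N]

omit [NeZero N] in
theorem actHol_T_inv_pow_inclHol (B : HolPer N) :
    actHol (ModularGroup.T⁻¹ ^ N) (inclHol N B) = inclHol N B := by
  apply Subtype.ext
  funext τ
  rw [actHol_T_inv_pow_apply]
  exact HolPer.vadd_apply B τ

/-- A root of an element of `MerPer N` which is `N`-periodic lies in `MerPer N`. -/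
theorem exists_merPer_of_pow {p : ℕ} (hp : p ≠ 0) (H : Mer) (W : MerPer N)
    (hH : H ^ p = toMer N W) (hper : actMer (ModularGroup.T⁻¹ ^ N) H = H) :
    ∃ U : MerPer N, toMer N U = H := by
  obtain ⟨A, B, hB, rfl⟩ := IsFractionRing.div_surjective (A := HolPer N) W
  have hB0 : B ≠ 0 := nonZeroDivisors.ne_zero hB
  have hBM : algebraMap Hol Mer (inclHol N B) ≠ 0 := by
    rw [Ne, map_eq_zero_iff _ (IsFractionRing.injective Hol Mer),
      map_eq_zero_iff _ (inclHol_injective N)]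
    exact hB0
  obtain ⟨q, rfl⟩ : ∃ q, p = q + 1 := Nat.exists_eq_succ_of_ne_zero hp
  have hG : (H * algebraMap Hol Mer (inclHol N B)) ^ (q + 1) =
      algebraMap Hol Mer (inclHol N A * inclHol N B ^ q) := by
    rw [mul_pow, hH, toMer_div, map_mul, map_pow, pow_succ]
    field_simp
  obtain ⟨G0, hG0⟩ := exists_hol_of_pow hp _ _ hG
  have hG0pow : G0 ^ (q + 1) = inclHol N A * inclHol N B ^ q := by
    apply IsFractionRing.injective Hol Mer
    rw [map_pow, hG0, hG]
  have hG0per : actHol (ModularGroup.T⁻¹ ^ N) G0 = G0 := by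
    apply IsFractionRing.injective Hol Mer
    rw [← actMer_algebraMap, hG0, map_mul, hper, actMer_algebraMap, actHol_T_inv_pow_inclHol]
  have hmem : (G0 : ℍ → ℂ) ∈ HolPer N := by
    rw [mem_HolPer_iff]
    refine ⟨G0.2, fun τ => ?_, ?_⟩
    · rw [← actHol_T_inv_pow_apply, hG0per]
    · apply isBoundedAtImInfty_of_pow hp
      have h1 : ((G0 : ℍ → ℂ)) ^ (q + 1) = ((A * B ^ q : HolPer N) : ℍ → ℂ) := by
        have := congrArg (Subtype.val) hG0pow
        exact this
      rw [h1]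
      exact (A * B ^ q : HolPer N).2.2.2
  refine ⟨algebraMap _ (MerPer N) (⟨G0, hmem⟩ : HolPer N) / algebraMap _ (MerPer N) B, ?_⟩
  rw [toMer_div, div_eq_iff hBM, ← hG0]
  rfl

variable {K : Type*} [Field K] [Algebra ℚ K] (ι : K →+* ℂ) [IsAlgClosed K]

/-- **Criterion for divisibility of a divisor.** -/
theorem dvd_ord_of_root {p : ℕ} (hp : p ≠ 0) (f : FK K N) (hf : f ≠ 0) (h : Mer)
    (hh : h ^ p = thetaK ι N f)
    (hell : ∀ γ ∈ Gamma0 N, ∀ τ : ℍ, γ • τ = τ → actMer γ h = h)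
    (hpar : ∀ γ ∈ Gamma0 N, ∀ (g : SL(2, ℤ)) (n : ℕ),
      γ = g⁻¹ * ModularGroup.T⁻¹ ^ n * g → actMer γ h = h)
    (v : Place K (FK K N)) : (p : ℤ) ∣ v.ord f := by
  have hθf : thetaK ι N f ≠ 0 := (map_ne_zero _).mpr hf
  have hh0 : h ≠ 0 := by
    rintro rfl
    rw [zero_pow hp] at hh
    exact hθf hh.symm
  have hj0 : jK1 K N ≠ 0 := fun h0 => transcendental_jK1 K N (h0 ▸ isAlgebraic_zero)
  by_cases hv : 0 ≤ v.ord (jK1 K N)
  · obtain ⟨τ, k, hk, h1, h2⟩ := exists_point_of_place ι N v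
      ((Place.mem_iff_ord_nonneg v hj0).2 hv)
    obtain ⟨n, hn⟩ := h2 h hh0 (fun γ hγ hγτ => hell γ hγ τ hγτ)
    have h3 := h1 f hf
    rw [← hh, map_pow, hn, ← exp_nsmul, exp_inj] at h3
    have hk' : (k : ℤ) ≠ 0 := by exact_mod_cast hk.ne'
    refine ⟨-n, ?_⟩
    apply mul_left_cancel₀ hk'
    simp only [nsmul_eq_mul] at h3
    linarith
  · push Not at hv
    obtain ⟨x, k, s, hks, hx, h1⟩ := exists_cusp_of_place ι N v hv
    set g : SL(2, ℤ) := Quotient.out x with hg
    have hgx : ((g : SL(2, ℤ)) : XN N) = x := Quotient.out_eq' x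
    have hmem : g⁻¹ * ModularGroup.T⁻¹ ^ s * g ∈ Gamma0 N := by
      have h2 : ((ModularGroup.T⁻¹ ^ s * g : SL(2, ℤ)) : XN N) = (g : XN N) := by
        rw [← smul_eq_mul, ← MulAction.Quotient.smul_coe, hgx, hx]
      have h3 := QuotientGroup.eq.mp h2.symm
      rwa [← mul_assoc] at h3
    have h3 := hpar _ hmem g s rfl
    set H : Mer := actMer g h with hH
    have hHs : actMer (ModularGroup.T⁻¹ ^ s) H = H := by
      have e : ModularGroup.T⁻¹ ^ s * g = g * (g⁻¹ * ModularGroup.T⁻¹ ^ s * g) := by group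
      calc actMer (ModularGroup.T⁻¹ ^ s) (actMer g h)
          = actMer (ModularGroup.T⁻¹ ^ s * g) h := by rw [map_mul]; rfl
        _ = actMer (g * (g⁻¹ * ModularGroup.T⁻¹ ^ s * g)) h := by rw [← e]
        _ = actMer g (actMer (g⁻¹ * ModularGroup.T⁻¹ ^ s * g) h) := by rw [map_mul]; rfl
        _ = actMer g h := by rw [h3]
    have hHN : actMer (ModularGroup.T⁻¹ ^ N) H = H := by
      have e : (ModularGroup.T⁻¹ : SL(2, ℤ)) ^ N = (ModularGroup.T⁻¹ ^ s) ^ k := by
        rw [← pow_mul, mul_comm, hks]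
      rw [e, actMer_pow]
      exact Function.iterate_fixed hHs k
    have hHp : H ^ p = toMer N (sigmaPerK ι N x f) := by
      rw [toMer_sigmaPerK, hH, ← map_pow, hh]
      rfl
    obtain ⟨U, hU⟩ := exists_merPer_of_pow N hp H _ hHp hHN
    have hH0 : H ≠ 0 := (map_ne_zero _).mpr hh0
    have hU0 : U ≠ 0 := by
      rintro rfl
      rw [map_zero] at hU
      exact hH0 hU.symm
    obtain ⟨n, hn⟩ := exists_order_eq_mul N hks U hU0 (by rw [hU]; exact hHs)
    have hUp : sigmaPerK ι N x f = U ^ p := by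
      apply toMer_injective N
      rw [map_pow, hU, hHp]
    have h4 := h1 f hf
    rw [sigmaInfK_apply, hUp, map_pow, HahnSeries.order_pow, hn] at h4
    have hk' : (k : ℤ) ≠ 0 := by
      have : k ≠ 0 := by
        rintro rfl
        exact NeZero.ne N (by simpa using hks.symm)
      exact_mod_cast this
    refine ⟨n, ?_⟩
    apply mul_left_cancel₀ hk'
    simp only [nsmul_eq_mul] at h4
    linarith

end

end Fermat.Agent.GAL.AD
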