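import Mathlib
import Fermat.Agent.GAL.AD.Basic
import Fermat.Agent.GAL.InvRat

/-!
The range of `thetaK`: algebraicity over `ℂ(j)`; over `K = ℂ` every `Γ₀(N)`-invariant element of
`Mer` algebraic over `ℂ(j)` lies in the range.
-/

set_option autoImplicit false

open IntermediateField CongruenceSubgroup
open scoped MatrixGroups
open Fermat.Agent.S24

namespace Fermat.Agent.GAL.AD

noncomputable section

variable (N : ℕ) [NeZero N]

theorem isAlgebraic_thetaK {K : Type*} [Field K] [Algebra ℚ K] (ι : K →+* ℂ) (f : FK K N) :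
    IsAlgebraic ℂ⟮jMer 1⟯ (thetaK ι N f) := by
  rw [← mem_algebraicClosure_iff]
  refine map_mem_of_gen (thetaK ι N) (algebraicClosure ℂ⟮jMer 1⟯ Mer).toSubfield ?_ ?_ f
  · intro a
    rw [thetaK_algebraMap]
    show algebraMap ℂ Mer (ι a) ∈ algebraicClosure ℂ⟮jMer 1⟯ Mer
    rw [mem_algebraicClosure_iff, IsScalarTower.algebraMap_apply ℂ ℂ⟮jMer 1⟯ Mer]
    exact isAlgebraic_algebraMap _
  · intro d _ hd
    rw [thetaK_jK]
    show jMer d ∈ algebraicClosure ℂ⟮jMer 1⟯ Mer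
    rw [mem_algebraicClosure_iff]
    exact isAlgebraic_jMer hd

theorem adjoin_le_fieldRange_thetaK :
    (IntermediateField.adjoin ℂ {jMer 1, jMer N}).toSubfield ≤
      (thetaK (RingHom.id ℂ) N).fieldRange := by
  show Subfield.closure _ ≤ _
  rw [Subfield.closure_le]
  rintro x (⟨a, rfl⟩ | hx)
  · exact ⟨algebraMap ℂ (FK ℂ N) a, thetaK_algebraMap _ N a⟩
  · rcases hx with rfl | hx
    · exact ⟨jK ℂ N 1 (one_dvd N), thetaK_jK _ N 1 (one_dvd N)⟩
    · rw [Set.mem_singleton_iff] at hx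
      subst hx
      exact ⟨jK ℂ N N dvd_rfl, thetaK_jK _ N N dvd_rfl⟩

/-- A `Γ₀(N)`-invariant element of `Mer` algebraic over `ℂ(j)` comes from the function field. -/
theorem exists_thetaK_eq_of_invariant (G : Mer) (hinv : ∀ γ ∈ Gamma0 N, actMer γ G = G)
    (halg : IsAlgebraic ℂ⟮jMer 1⟯ G) : ∃ w : FK ℂ N, thetaK (RingHom.id ℂ) N w = G :=
  adjoin_le_fieldRange_thetaK N (mem_adjoin_of_Gamma0_invariant G hinv halg)

/-- A `Γ₀(N)`-invariant root of an element of the function field is in the function field. -/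
theorem exists_thetaK_eq_of_pow (G : Mer) (hinv : ∀ γ ∈ Gamma0 N, actMer γ G = G)
    {m : ℕ} (hm : m ≠ 0) (f : FK ℂ N) (hG : G ^ m = thetaK (RingHom.id ℂ) N f) :
    ∃ w : FK ℂ N, thetaK (RingHom.id ℂ) N w = G ∧ w ^ m = f := by
  have halg : IsAlgebraic ℂ⟮jMer 1⟯ G := by
    apply IsAlgebraic.of_pow (Nat.pos_of_ne_zero hm)
    rw [hG]
    exact isAlgebraic_thetaK N _ f
  obtain ⟨w, hw⟩ := exists_thetaK_eq_of_invariant N G hinv halg
  refine ⟨w, hw, ?_⟩
  apply thetaK_injective (RingHom.id ℂ) N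
  rw [map_pow, hw, hG]

end

end Fermat.Agent.GAL.AD
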