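import Mathlib
import Fermat.Agent.GAL.AD.Degree
import Fermat.Agent.GAL.AD.Criterion
import Fermat.Agent.GAL.AD.Range
import Fermat.Agent.GAL.RootMer
import Fermat.Agent.S24.PointTargets
import Fermat.Prelude.Def_ModularCurve_ArithmeticGalois

/-!
The Kummer character of a function whose divisor is divisible by `m`, finiteness, and the
finite index of the stabiliser of a Kummer class under `Aut(ℂ)`.
-/

set_option autoImplicit false

open UpperHalfPlane hiding I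
open AlgebraicCurve IntermediateField WithZero CongruenceSubgroup ModularCurve
open scoped MatrixGroups
open Fermat.Agent.S24

namespace Fermat.Agent.GAL.AD

noncomputable section

/-! ### The easy direction of the dictionary -/

section Easy

variable {K : Type*} [Field K] [Algebra ℚ K] (ι : K →+* ℂ) (N : ℕ) [NeZero N]

/-- Every point of the upper half plane defines a place. -/
theorem exists_place_of_point (τ : ℍ) (c : K) (hc : ι c = jfun τ) :
    ∃ (v : Place K (FK K N)) (k : ℕ), 0 < k ∧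
      ∀ f : FK K N, f ≠ 0 → merVal τ (thetaK ι N f) = exp (-((k : ℤ) * v.ord f)) := by
  have : CharZero K := algebraRat.charZero K
  set O : ValuationSubring (FK K N) := ((merVal τ).comap (thetaK ι N)).valuationSubring with hO
  have hmem : ∀ f : FK K N, f ∈ O ↔ merVal τ (thetaK ι N f) ≤ 1 := by
    intro f
    rw [hO, Valuation.mem_valuationSubring_iff]
    rfl
  have hK : ∀ a : K, algebraMap K (FK K N) a ∈ O := by
    intro a
    rw [hmem, thetaK_algebraMap]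
    rcases eq_or_ne a 0 with rfl | ha
    · simp
    · exact (merVal_algebraMap_complex τ ((map_ne_zero ι).mpr ha)).le
  have hj : jK1 K N ∈ O := by
    rw [hmem, thetaK_jK1, merVal_algebraMap]
    exact holVal_le_one _ _
  have hne : O ≠ ⊤ := by
    intro htop
    set t : FK K N := jK1 K N - algebraMap K (FK K N) c with ht
    have ht0 : t ≠ 0 := by
      intro h0
      rw [ht, sub_eq_zero] at h0
      exact transcendental_jK1 K N (h0 ▸ isAlgebraic_algebraMap c)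
    have h1 : t⁻¹ ∈ O := by rw [htop]; trivial
    rw [hmem, map_inv₀, map_inv₀] at h1
    have h2 : merVal τ (thetaK ι N t) < 1 := by
      have e : thetaK ι N t = algebraMap Hol Mer (jdHol 1 - algebraMap ℂ Hol (ι c)) := by
        rw [ht, RingHom.map_sub, thetaK_jK1, thetaK_algebraMap, RingHom.map_sub,
          ← IsScalarTower.algebraMap_apply]
      rw [e, merVal_algebraMap, holVal_lt_one_iff, coe_jdHol_one_sub, hc]
      exact sub_self _
    have h3 : merVal τ (thetaK ι N t) ≠ 0 :=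
      (Valuation.ne_zero_iff _).mpr ((map_ne_zero _).mpr ht0)
    have h4 : 1 < (merVal τ (thetaK ι N t))⁻¹ := (one_lt_inv₀ (zero_lt_iff.mpr h3)).mpr h2
    exact absurd h1 (not_le.mpr h4)
  obtain ⟨v, hv⟩ := (isFiniteParam_jK1 ι N).exists_place_eq O hK hj hne
  obtain ⟨k, hk, -, hkf⟩ := exists_pos_mul_ord (merVal τ) (thetaK ι N) v hv
  exact ⟨v, k, hk, hkf⟩

theorem exists_merVal_eq_of_dvd (τ : ℍ) (c : K) (hc : ι c = jfun τ) {m : ℕ} (f : FK K N)
    (hf : f ≠ 0) (hdiv : ∀ v : Place K (FK K N), (m : ℤ) ∣ v.ord f) :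
    ∃ n : ℤ, merVal τ (thetaK ι N f) = exp ((m : ℤ) * n) := by
  obtain ⟨v, k, -, hk⟩ := exists_place_of_point ι N τ c hc
  obtain ⟨n, hn⟩ := hdiv v
  refine ⟨-(k * n), ?_⟩
  rw [hk f hf, hn]
  congr 1
  ring

end Easy

/-! ### Finiteness of the set of characters -/

instance fg_SL2Z : Group.FG SL(2, ℤ) := by
  rw [Group.fg_iff]
  exact ⟨{ModularGroup.S, ModularGroup.T}, SpecialLinearGroup.SL2Z_generators,
    Set.toFinite _⟩

theorem finite_torsion_characters {G : Type*} [Group G] [Group.FG G] (m : ℕ) [NeZero m] :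
    Finite {χ : G →* ℂˣ // ∀ g, χ g ^ m = 1} := by
  classical
  obtain ⟨S, hS, hSfin⟩ := Group.fg_iff.mp (inferInstance : Group.FG G)
  have : Finite S := hSfin
  let Φ : {χ : G →* ℂˣ // ∀ g, χ g ^ m = 1} → (S → rootsOfUnity m ℂ) :=
    fun χ s => ⟨χ.1 s, (mem_rootsOfUnity _ _).mpr (χ.2 s)⟩
  refine Finite.of_injective Φ ?_
  intro χ χ' h
  apply Subtype.ext
  apply MonoidHom.eq_of_eqOn_dense hS
  intro s hs
  have := congrFun h ⟨s, hs⟩
  exact congrArg (fun z : rootsOfUnity m ℂ => (z : ℂˣ)) this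

/-! ### The Kummer character over `ℂ` -/

section Kappa

variable (N m : ℕ) [NeZero N] [NeZero m]

local notation "θ" => thetaK (RingHom.id ℂ) N

/-- Existence of the root and of the character. -/
theorem exists_root_character (f : FK ℂ N) (hf : f ≠ 0)
    (hdiv : ∀ v : Place ℂ (FK ℂ N), (m : ℤ) ∣ v.ord f) :
    ∃ (h : Mer) (χ : Gamma0 N →* ℂˣ), h ≠ 0 ∧ h ^ m = θ f ∧ (∀ g, χ g ^ m = 1) ∧
      ∀ g : Gamma0 N, actMer (g : SL(2, ℤ)) h = algebraMap ℂ Mer (χ g : ℂ) * h := by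
  have hθ : θ f ≠ 0 := (map_ne_zero _).mpr hf
  obtain ⟨h, hh⟩ := exists_mer_root m (NeZero.ne m) (θ f) hθ
    (fun τ => exists_merVal_eq_of_dvd (RingHom.id ℂ) N τ (jfun τ) rfl f hf hdiv)
  have hh0 : h ≠ 0 := by
    rintro rfl
    rw [zero_pow (NeZero.ne m)] at hh
    exact hθ hh.symm
  obtain ⟨χ, hχ, hχh⟩ := exists_character m (NeZero.ne m) (Gamma0 N) h hh0
    (fun g hg => by rw [hh, actMer_thetaK _ hg])
  exact ⟨h, χ, hh0, hh, hχ, hχh⟩

/-- Same character implies same class modulo `m`-th powers. -/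
theorem exists_pow_of_same_character {f f' : FK ℂ N} {h h' : Mer} {χ : Gamma0 N →* ℂˣ}
    (hh : h ^ m = θ f) (hh' : h' ^ m = θ f') (hf' : f' ≠ 0)
    (hχ : ∀ g : Gamma0 N, actMer (g : SL(2, ℤ)) h = algebraMap ℂ Mer (χ g : ℂ) * h)
    (hχ' : ∀ g : Gamma0 N, actMer (g : SL(2, ℤ)) h' = algebraMap ℂ Mer (χ g : ℂ) * h') :
    ∃ w : FK ℂ N, f = f' * w ^ m := by
  have hinv : ∀ γ ∈ Gamma0 N, actMer γ (h / h') = h / h' := by
    intro γ hγ
    have hc : algebraMap ℂ Mer ((χ ⟨γ, hγ⟩ : ℂˣ) : ℂ) ≠ 0 :=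
      (map_ne_zero _).mpr (Units.ne_zero _)
    rw [map_div₀, hχ ⟨γ, hγ⟩, hχ' ⟨γ, hγ⟩, mul_div_mul_left _ _ hc]
  obtain ⟨w, -, hw⟩ := exists_thetaK_eq_of_pow N (h / h') hinv (NeZero.ne m) (f / f')
    (by rw [div_pow, hh, hh', map_div₀])
  exact ⟨w, by rw [hw, mul_div_cancel₀ _ hf']⟩

local notation "Gal" => arithmeticGalois (L := ℂ) (modularFunctionFieldFull N)

omit [NeZero N] [NeZero m] in
theorem dvd_ord_smul (σ : ℂ ≃ₐ[ℚ] ℂ) (f : FK ℂ N)
    (hdiv : ∀ v : Place ℂ (FK ℂ N), (m : ℤ) ∣ v.ord f) (v : Place ℂ (FK ℂ N)) :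
    (m : ℤ) ∣ v.ord (Gal σ • f) := by
  have h := SemilinearAut.ord_smul (Gal σ) ((Gal σ)⁻¹ • v) f
  rw [smul_inv_smul] at h
  rw [h]
  exact hdiv _

/-- The stabiliser of the class of `f` modulo `m`-th powers. -/
def kummerStab (f : FK ℂ N) : Subgroup (ℂ ≃ₐ[ℚ] ℂ) where
  carrier := {σ | ∃ w : FK ℂ N, w ≠ 0 ∧ Gal σ • f = f * w ^ m}
  one_mem' := ⟨1, one_ne_zero, by simp⟩
  mul_mem' := by
    rintro σ τ ⟨w, hw0, hw⟩ ⟨w', hw'0, hw'⟩
    refine ⟨w * (Gal σ • w'), mul_ne_zero hw0 (by simpa using hw'0), ?_⟩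
    rw [map_mul, mul_smul, hw', smul_mul', smul_pow', hw, mul_pow, mul_assoc]
  inv_mem' := by
    rintro σ ⟨w, hw0, hw⟩
    refine ⟨((Gal σ)⁻¹ • w)⁻¹, inv_ne_zero (by simpa using hw0), ?_⟩
    have h1 : f = ((Gal σ)⁻¹ • f) * ((Gal σ)⁻¹ • w) ^ m := by
      have := congrArg (fun x => (Gal σ)⁻¹ • x) hw
      simp only [inv_smul_smul, smul_mul', smul_pow'] at this
      exact this
    have h2 : ((Gal σ)⁻¹ • w) ^ m ≠ 0 := pow_ne_zero _ (by simpa using hw0)
    rw [map_inv, inv_pow, ← div_eq_mul_inv, eq_div_iff h2]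
    exact h1.symm

/-- **AD7.** -/
theorem exists_finiteIndex_stab (f : FK ℂ N) (hf : f ≠ 0)
    (hdiv : ∀ v : Place ℂ (FK ℂ N), (m : ℤ) ∣ v.ord f) :
    ∃ H : Subgroup (ℂ ≃ₐ[ℚ] ℂ), H.FiniteIndex ∧ ∀ σ ∈ H, ∃ w : FK ℂ N, w ≠ 0 ∧
      arithmeticGalois (modularFunctionFieldFull N) σ • f = f * w ^ m := by
  classical
  refine ⟨kummerStab N m f, ?_, fun σ hσ => hσ⟩
  have hne : ∀ σ : ℂ ≃ₐ[ℚ] ℂ, Gal σ • f ≠ 0 := fun σ => by simpa using hf
  have hex := fun σ : ℂ ≃ₐ[ℚ] ℂ =>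
    exists_root_character N m (Gal σ • f) (hne σ) (dvd_ord_smul N m σ f hdiv)
  choose h χ hh0 hh hχ hχh using hex
  have : Group.FG (Gamma0 N) := Subgroup.fg_of_index_ne_zero _
  have hfin : Finite {χ : Gamma0 N →* ℂˣ // ∀ g, χ g ^ m = 1} := finite_torsion_characters m
  have hq : Finite ((ℂ ≃ₐ[ℚ] ℂ) ⧸ kummerStab N m f) := by
    refine Finite.of_injective
      (fun q => (⟨χ (Quotient.out q), hχ _⟩ : {χ : Gamma0 N →* ℂˣ // ∀ g, χ g ^ m = 1})) ?_
    intro q q' hqq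
    have h1 : χ (Quotient.out q) = χ (Quotient.out q') := congrArg Subtype.val hqq
    set σ := Quotient.out q with hσ
    set τ := Quotient.out q' with hτ
    obtain ⟨w, hw⟩ := exists_pow_of_same_character N m (hh τ) (hh σ) (hne σ)
      (χ := χ σ) (by rw [h1]; exact hχh τ) (hχh σ)
    have hw0 : w ≠ 0 := by
      rintro rfl
      rw [zero_pow (NeZero.ne m), mul_zero] at hw
      exact hne τ hw
    have hmem : σ⁻¹ * τ ∈ kummerStab N m f := by
      refine ⟨(Gal σ)⁻¹ • w, by simpa using hw0, ?_⟩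
      rw [map_mul, mul_smul, hw, map_inv, smul_mul', smul_pow', inv_smul_smul]
    have h2 : ((σ : ℂ ≃ₐ[ℚ] ℂ) : (ℂ ≃ₐ[ℚ] ℂ) ⧸ kummerStab N m f) = τ :=
      QuotientGroup.eq.mpr hmem
    rw [← Quotient.out_eq' q, ← Quotient.out_eq' q']
    exact h2
  exact Subgroup.finiteIndex_of_finite_quotient

end Kappa

end

end Fermat.Agent.GAL.AD
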